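/-
MAZ free layer, brick F-E1 (helper89): ORDERS OF `j_d` AT THE CUSPS, any level `M`.

For `γ ∈ SL(2, ℤ)`, `d ∣ M` and `cg d γ := gcd(d, |γ₁₀|)`:

* `order_T_jdF_top` : `ord (T_d γ j_d) = -cg²` at level `d` (Hermite normal form of `diag(d,1) γ`,
  `X0/HNF` + `X0/CuspDistinct.cd_T_jdF_eq`);
* `order_T_jdF`     : `ord (T_M γ j_d) = -(M / d) cg²` at level `M` (`RED/BASE/CuspExpLevel11.T_inclFF`);
* `cuspPlace_ord_jdF` : for the cusp place `W = cuspPlace g` of level `M` there is ONE `m > 0` with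
  `m * ord_W j_d = -(M / d) gcd(d, |(g⁻¹)₁₀|)²` for all `d ∣ M`.
-/
import Mathlib
import Fermat.Agent.X0.HNF
import Fermat.Agent.X0.CuspDistinct
import Fermat.Agent.X0.CuspGood
import Fermat.Agent.X0.CuspPlaces
import Fermat.Agent.X0.CuspExpand
import Fermat.Agent.RED.BASE.CuspExpLevel11
import Fermat.Agent.RED.BASE.Hauptmodul12
import Fermat.Agent.RED.CUSP.CuspExact16

set_option autoImplicit false

open AlgebraicCurve ModularCurve UpperHalfPlane
open scoped MatrixGroups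

noncomputable section

namespace Fermat.Agent.MAZ.HeckeCusp89

open Fermat.Agent.X0 Fermat.Agent.X0.Analytic
open Fermat.Agent.RED.BASE.CuspExpMain11 Fermat.Agent.RED.BASE.CuspExpLevel11

/-- `gcd(d, |γ₁₀|)`. -/
def cg (d : ℕ) (γ : SL(2, ℤ)) : ℕ := Nat.gcd d (γ 1 0).natAbs

theorem cg_pos (d : ℕ) [NeZero d] (γ : SL(2, ℤ)) : 0 < cg d γ :=
  Nat.gcd_pos_of_pos_left _ (Nat.pos_of_ne_zero (NeZero.ne d))

theorem cg_one_left (γ : SL(2, ℤ)) : cg 1 γ = 1 := Nat.gcd_one_left _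

/-- Coefficientwise injective maps preserve the order of a Laurent series. -/
theorem order_coeffMap_inj {R S : Type*} [CommRing R] [CommRing S] (φ : R →+* S)
    (hφ : Function.Injective φ) (x : LaurentSeries R) : (coeffMap φ x).order = x.order := by
  by_cases hx : x = 0
  · subst hx
    rw [map_zero, HahnSeries.order_zero, HahnSeries.order_zero]
  · apply Fermat.Agent.RED.BASE.Hauptmodul12.order_eq_of_coeff
    · rw [coeffMap_coeff]
      exact (map_ne_zero_iff φ hφ).mpr (HahnSeries.coeff_order_eq_zero.not.mpr hx)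
    · intro j hj
      rw [coeffMap_coeff, HahnSeries.coeff_eq_zero_of_lt_order hj, map_zero]

/-- Level `d`: the order of the cusp expansion of `j_d` along `γ` is `-gcd(d, γ₁₀)²`. -/
theorem order_T_jdF_top (d : ℕ) [NeZero d] (γ : SL(2, ℤ)) :
    ((cuspData d).T γ (jdF d d (dvd_refl d))).order = -(((cg d γ * cg d γ : ℕ)) : ℤ) := by
  obtain ⟨γ', a, e, b, ha, he, hae, hag, -, -, -, hrel⟩ := HNF.exists_hermiteRel γ d
  have h1 := CuspDistinct.cd_T_jdF_eq (realizeData d) (cuspData d) γ ha he hae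
    (fun z => hrel.jdFun_smul ha he z)
  have h2 := order_coeffMap_inj iotaK iotaK.injective ((cuspData d).T γ (jdF d d (dvd_refl d)))
  have h3 : (CuspDistinct.cd_Q a e b ha).order = ((0 : ℕ) : ℕ∞) := by
    rw [PowerSeries.order_eq_nat]
    refine ⟨?_, fun i hi => absurd hi (Nat.not_lt_zero i)⟩
    rw [CuspDistinct.cd_coeff_zero_Q]
    exact inv_ne_zero (CuspDistinct.cd_zeta_ne_zero e b)
  rw [← h2, h1, Fermat.Agent.RED.BASE.Hauptmodul12.order_laurentOf h3, cg, ← hag]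
  push_cast
  ring

/-- Level `M`, `d ∣ M`: the order of the cusp expansion of `j_d` along `γ` is
`-(M / d) gcd(d, γ₁₀)²`. -/
theorem order_T_jdF (M d : ℕ) [NeZero M] [NeZero d] (hd : d ∣ M) (γ : SL(2, ℤ)) :
    ((cuspData M).T γ (jdF M d hd)).order = -((((M / d) * (cg d γ * cg d γ) : ℕ)) : ℤ) := by
  obtain ⟨c, rfl⟩ := hd
  have hd0 : 0 < d := Nat.pos_of_ne_zero (NeZero.ne d)
  have hc : NeZero c := ⟨fun h => NeZero.ne (d * c) (by rw [h, mul_zero])⟩
  have h := T_inclFF (n := d) c γ (jdF d d (dvd_refl d))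
  rw [inclFF_jdF] at h
  rw [h, Fermat.Agent.RED.CUSP.CuspExact16.order_qExpand, order_T_jdF_top,
    Nat.mul_div_cancel_left c hd0]
  push_cast
  ring

theorem jdF_ne_zero (M d : ℕ) [NeZero M] [NeZero d] (hd : d ∣ M) : jdF M d hd ≠ 0 := by
  intro h0
  have h := order_T_jdF M d hd 1
  rw [h0, map_zero, HahnSeries.order_zero] at h
  have hpos : 0 < (M / d) * (cg d 1 * cg d 1) :=
    Nat.mul_pos (Nat.div_pos (Nat.le_of_dvd (Nat.pos_of_ne_zero (NeZero.ne M)) hd)
      (Nat.pos_of_ne_zero (NeZero.ne d))) (Nat.mul_pos (cg_pos d 1) (cg_pos d 1))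
  have : (0 : ℤ) < (((M / d) * (cg d 1 * cg d 1) : ℕ) : ℤ) := by exact_mod_cast hpos
  omega

/-- **Orders of the `j_d` at a cusp place** of level `M`, with a common multiplicity `m`. -/
theorem cuspPlace_ord_jdF (M : ℕ) [NeZero M] (g : SL(2, ℤ)) :
    ∃ m : ℕ, 0 < m ∧ ∀ (d : ℕ) [NeZero d] (hd : d ∣ M),
      (m : ℤ) * (cuspPlace (CuspGood.good (cuspData M)) g).ord (jdF M d hd) =
        -((((M / d) * (cg d g⁻¹ * cg d g⁻¹) : ℕ)) : ℤ) := by
  obtain ⟨m, hm, hspec, -⟩ := cuspPlace_spec (CuspGood.good (cuspData M)) g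
  refine ⟨m, hm, fun d _ hd => ?_⟩
  rw [← hspec _ (jdF_ne_zero M d hd), order_T_jdF]

end Fermat.Agent.MAZ.HeckeCusp89
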