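/-
MAZ free layer, brick F-E1 (helper89): DEFINITIONS for the cuspidal divisor class of `X₀(p)`.

* `cuspInf p`, `cuspZero p` : the two cusps `∞`, `0` of `X₀(p)` as places of
  `modularFunctionFieldBar p` over `ℚbar` (the cusp places `X0.cuspPlace` of `g = 1`, `g = S`);
* `cuspDiv p = [∞] - [0]`, of degree `0`;
* `c0 p : JZero p`, the class of `[∞] - [0]` in `J₀(p)(ℚbar)`.

(`p` is any nonzero level here; primality only enters in the theorems.)
-/
import Mathlib
import Fermat.Prelude.Def_ModularCurve_HeckeModule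
import Fermat.Agent.X0.CuspGood
import Fermat.Agent.X0.CuspPlaces
import Fermat.Agent.X0.CuspExpand
import Fermat.Agent.RED.TOP.FbarFacts20

set_option autoImplicit false

open AlgebraicCurve ModularCurve
open scoped MatrixGroups

noncomputable section

namespace Fermat.Agent.MAZ.HeckeCusp89

open Fermat.Agent.X0

variable (p : ℕ) [NeZero p]

/-- The cusp `∞` of `X₀(p)`: the place of the `q`-expansion. -/
def cuspInf : Place (AlgebraicClosure ℚ) (modularFunctionFieldBar p) :=
  cuspPlace (CuspGood.good (cuspData p)) 1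

/-- The cusp `0` of `X₀(p)`: the place of the expansion along `S`. -/
def cuspZero : Place (AlgebraicClosure ℚ) (modularFunctionFieldBar p) :=
  cuspPlace (CuspGood.good (cuspData p)) ModularGroup.S

/-- The divisor `[∞] - [0]`. -/
def cuspDiv : Divisor (AlgebraicClosure ℚ) (modularFunctionFieldBar p) :=
  Finsupp.single (cuspInf p) 1 - Finsupp.single (cuspZero p) 1

theorem cuspDiv_mem_degZero :
    cuspDiv p ∈ Divisor.degZero (K := AlgebraicClosure ℚ) (F := modularFunctionFieldBar p) := by
  rw [Divisor.mem_degZero, cuspDiv, map_sub, Divisor.degree_single, Divisor.degree_single,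
    Fermat.Agent.RED.TOP.FbarFacts20.deg_eq_one_bar, Fermat.Agent.RED.TOP.FbarFacts20.deg_eq_one_bar,
    sub_self]

/-- The degree-zero divisor `[∞] - [0]`. -/
def cuspDiv0 : Divisor.degZero (K := AlgebraicClosure ℚ) (F := modularFunctionFieldBar p) :=
  ⟨cuspDiv p, cuspDiv_mem_degZero p⟩

@[simp] theorem coe_cuspDiv0 : ((cuspDiv0 p :
    Divisor.degZero (K := AlgebraicClosure ℚ) (F := modularFunctionFieldBar p)) :
      Divisor (AlgebraicClosure ℚ) (modularFunctionFieldBar p)) = cuspDiv p := rfl

/-- **The cuspidal class** `c₀ = [∞] - [0] ∈ J₀(p)(ℚbar)`. -/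
def c0 : JZero p := Pic0.mk (cuspDiv0 p)

theorem c0_def : c0 p = Pic0.mk ⟨Finsupp.single (cuspInf p) 1 - Finsupp.single (cuspZero p) 1,
    cuspDiv_mem_degZero p⟩ := rfl

end Fermat.Agent.MAZ.HeckeCusp89
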