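/-
MAZ free layer, brick F-E1 (helper89): THE TWO CUSPS OF `X₀(p)`, `p` prime.

* `exists_cuspPlace_eq'` : every place with `ord j < 0` is a cusp place (any level);
* `cuspPlace_eq_cuspInf_of_dvd`, `cuspPlace_eq_cuspZero_of_not_dvd` : at prime level the cusp place
  of `g` is `∞` or `0` according to `p ∣ (g⁻¹)₁₀` or not;
* `cuspInf_ord_jp : ord_∞ j_p = p ord_∞ j`, `cuspZero_ord_jp : p ord_0 j_p = ord_0 j`;
* `eq_cuspInf_of_ord`, `eq_cuspZero_of_ord` : a pole `v` of `j` is `∞` (resp. `0`) as soon as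
  `ord_v j_p = p ord_v j` (resp. `p ord_v j_p = ord_v j`); `cuspInf_ne_cuspZero`.
-/
import Mathlib
import Fermat.Agent.MAZ.HeckeCusp89.Defs
import Fermat.Agent.MAZ.HeckeCusp89.CuspOrd
import Fermat.Agent.X0.CuspSurj
import Fermat.Agent.X0.Degree

set_option autoImplicit false

open AlgebraicCurve ModularCurve UpperHalfPlane
open scoped MatrixGroups

noncomputable section

namespace Fermat.Agent.MAZ.HeckeCusp89

open Fermat.Agent.X0 CongruenceSubgroup

/-- Every pole of `j` is a cusp place. -/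
theorem exists_cuspPlace_eq' (M : ℕ) [NeZero M] (v : Place Kbar (FF M)) (hv : v.ord (jF M) < 0) :
    ∃ g : SL(2, ℤ), cuspPlace (CuspGood.good (cuspData M)) g = v := by
  have hx : FF.IsGen Kbar (jF M) := Degree.isGen_jF M (realizeData M) (cuspData M)
  have hfd : FiniteDimensional (IntermediateField.adjoin Kbar {jF M}) (FF M) := hx.finite
  exact CuspSurj.exists_cuspPlace_eq _
    (Degree.card_eq_finrank_adjoin M (realizeData M) (cuspData M)) v hv

section Prime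

variable (p : ℕ) [NeZero p]

theorem cuspPlace_eq_cuspInf_of_dvd (g : SL(2, ℤ)) (h : (p : ℤ) ∣ (g⁻¹ : SL(2, ℤ)) 1 0) :
    cuspPlace (CuspGood.good (cuspData p)) g = cuspInf p := by
  have hg' : g⁻¹ ∈ Gamma0 p := by
    rw [Gamma0_mem]
    exact (ZMod.intCast_zmod_eq_zero_iff_dvd _ p).mpr h
  have hg : g ∈ Gamma0 p := by simpa using inv_mem hg'
  have := cuspPlace_mul_right (CuspGood.good (cuspData p)) 1 g hg
  rwa [one_mul] at this

theorem entry_mul_T_zpow_mul_S (γ : SL(2, ℤ)) (k : ℤ) :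
    (γ * ModularGroup.T ^ k * ModularGroup.S : SL(2, ℤ)) 1 0 = γ 1 0 * k + γ 1 1 := by
  rw [Matrix.SpecialLinearGroup.coe_mul, Matrix.SpecialLinearGroup.coe_mul,
    ModularGroup.coe_T_zpow, ModularGroup.coe_S]
  simp [Matrix.mul_apply, Fin.sum_univ_two]

theorem cuspPlace_eq_cuspZero_of_not_dvd (hp : p.Prime) (g : SL(2, ℤ))
    (h : ¬ (p : ℤ) ∣ (g⁻¹ : SL(2, ℤ)) 1 0) :
    cuspPlace (CuspGood.good (cuspData p)) g = cuspZero p := by
  set γ : SL(2, ℤ) := g⁻¹ with hγ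
  have hpZ : Prime (p : ℤ) := Nat.prime_iff_prime_int.mp hp
  have hcop : IsCoprime (γ 1 0) (p : ℤ) :=
    ((Prime.coprime_iff_not_dvd hpZ).mpr h).symm
  obtain ⟨u, v, huv⟩ := hcop
  set k : ℤ := -u * γ 1 1 with hk
  set δ : SL(2, ℤ) := γ * ModularGroup.T ^ k * ModularGroup.S with hδ
  have hδmem : δ ∈ Gamma0 p := by
    rw [Gamma0_mem, hδ, entry_mul_T_zpow_mul_S]
    refine (ZMod.intCast_zmod_eq_zero_iff_dvd _ p).mpr ⟨v * γ 1 1, ?_⟩
    rw [hk]
    linear_combination (-(γ 1 1)) * huv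
  have hg : g = ModularGroup.T ^ k * (ModularGroup.S * δ⁻¹) := by
    rw [hδ, hγ]
    group
  rw [hg, cuspPlace_T_zpow_mul, cuspPlace_mul_right _ _ _ (inv_mem hδmem)]
  rfl

omit [NeZero p] in
theorem cg_one_inv : cg p (1 : SL(2, ℤ))⁻¹ = p := by
  rw [cg, inv_one]
  simp

omit [NeZero p] in
theorem cg_S_inv : cg p (ModularGroup.S)⁻¹ = 1 := by
  have h : ((ModularGroup.S)⁻¹ : SL(2, ℤ)) 1 0 = -1 := by
    rw [ModularGroup.S_inv]
    rfl
  rw [cg, h]
  simp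

theorem jF_eq_jdF_one (M : ℕ) [NeZero M] : jF M = jdF M 1 (one_dvd M) := rfl

/-- `ord_∞ j_p = p ord_∞ j`. -/
theorem cuspInf_ord_jp :
    (cuspInf p).ord (jdF p p (dvd_refl p)) = (p : ℤ) * (cuspInf p).ord (jF p) := by
  obtain ⟨m, hm, h⟩ := cuspPlace_ord_jdF p 1
  have h1 := h p (dvd_refl p)
  have h2 := h 1 (one_dvd p)
  have hp0 : 0 < p := Nat.pos_of_ne_zero (NeZero.ne p)
  rw [cg_one_inv, Nat.div_self hp0] at h1
  rw [cg_one_left, Nat.div_one] at h2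
  have hm' : (m : ℤ) ≠ 0 := by exact_mod_cast hm.ne'
  apply mul_left_cancel₀ hm'
  have e1 : (m : ℤ) * (cuspInf p).ord (jdF p p (dvd_refl p)) = -(((1 * (p * p) : ℕ)) : ℤ) := h1
  have e2 : (m : ℤ) * (cuspInf p).ord (jF p) = -(((p * (1 * 1) : ℕ)) : ℤ) := h2
  rw [e1, mul_left_comm (m : ℤ) (p : ℤ), e2]
  push_cast
  ring

/-- `p ord_0 j_p = ord_0 j`. -/
theorem cuspZero_ord_jp :
    (p : ℤ) * (cuspZero p).ord (jdF p p (dvd_refl p)) = (cuspZero p).ord (jF p) := by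
  obtain ⟨m, hm, h⟩ := cuspPlace_ord_jdF p ModularGroup.S
  have h1 := h p (dvd_refl p)
  have h2 := h 1 (one_dvd p)
  have hp0 : 0 < p := Nat.pos_of_ne_zero (NeZero.ne p)
  rw [cg_S_inv, Nat.div_self hp0] at h1
  rw [cg_one_left, Nat.div_one] at h2
  have hm' : (m : ℤ) ≠ 0 := by exact_mod_cast hm.ne'
  apply mul_left_cancel₀ hm'
  have e1 : (m : ℤ) * (cuspZero p).ord (jdF p p (dvd_refl p)) = -(((1 * (1 * 1) : ℕ)) : ℤ) := h1
  have e2 : (m : ℤ) * (cuspZero p).ord (jF p) = -(((p * (1 * 1) : ℕ)) : ℤ) := h2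
  rw [e2, mul_left_comm (m : ℤ) (p : ℤ), e1]
  push_cast
  ring

theorem cuspInf_ord_jF_neg : (cuspInf p).ord (jF p) < 0 :=
  cuspPlace_ord_jF_neg _ _

theorem cuspZero_ord_jF_neg : (cuspZero p).ord (jF p) < 0 :=
  cuspPlace_ord_jF_neg _ _

/-- The poles of `j` on `X₀(p)` are the two cusps. -/
theorem eq_cuspInf_or_eq_cuspZero (hp : p.Prime) (v : Place Kbar (FF p))
    (hv : v.ord (jF p) < 0) : v = cuspInf p ∨ v = cuspZero p := by
  obtain ⟨g, rfl⟩ := exists_cuspPlace_eq' p v hv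
  by_cases h : (p : ℤ) ∣ (g⁻¹ : SL(2, ℤ)) 1 0
  · exact Or.inl (cuspPlace_eq_cuspInf_of_dvd p g h)
  · exact Or.inr (cuspPlace_eq_cuspZero_of_not_dvd p hp g h)

/-- `p (p x) = x`, `x < 0`, `2 ≤ p` is absurd. -/
theorem absurd_of_mul_mul {P x : ℤ} (hP : 2 ≤ P) (hx : x < 0) (h : P * (P * x) = x) : False := by
  have hpp : (1 : ℤ) < P * P := by nlinarith
  have h0 : (P * P - 1) * x = 0 := by linear_combination h
  rcases mul_eq_zero.mp h0 with h1 | h1
  · linarith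
  · linarith

/-- A pole `v` of `j` with `ord_v j_p = p ord_v j` is the cusp `∞`. -/
theorem eq_cuspInf_of_ord (hp : p.Prime) (v : Place Kbar (FF p)) (hv : v.ord (jF p) < 0)
    (h : v.ord (jdF p p (dvd_refl p)) = (p : ℤ) * v.ord (jF p)) : v = cuspInf p := by
  rcases eq_cuspInf_or_eq_cuspZero p hp v hv with h1 | h1
  · exact h1
  · exfalso
    have h2 := cuspZero_ord_jp p
    rw [← h1, h] at h2
    have hp2 : (2 : ℤ) ≤ p := by exact_mod_cast hp.two_le
    exact absurd_of_mul_mul hp2 hv h2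

/-- A pole `v` of `j` with `p ord_v j_p = ord_v j` is the cusp `0`. -/
theorem eq_cuspZero_of_ord (hp : p.Prime) (v : Place Kbar (FF p)) (hv : v.ord (jF p) < 0)
    (h : (p : ℤ) * v.ord (jdF p p (dvd_refl p)) = v.ord (jF p)) : v = cuspZero p := by
  rcases eq_cuspInf_or_eq_cuspZero p hp v hv with h1 | h1
  · exfalso
    have h2 := cuspInf_ord_jp p
    rw [← h1] at h2
    rw [h2] at h
    have hp2 : (2 : ℤ) ≤ p := by exact_mod_cast hp.two_le
    exact absurd_of_mul_mul hp2 hv h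
  · exact h1

theorem cuspInf_ne_cuspZero (hp : p.Prime) : cuspInf p ≠ cuspZero p := by
  intro heq
  have h1 := cuspInf_ord_jp p
  have h2 := cuspZero_ord_jp p
  have h3 := cuspInf_ord_jF_neg p
  rw [← heq, h1] at h2
  have hp2 : (2 : ℤ) ≤ p := by exact_mod_cast hp.two_le
  exact absurd_of_mul_mul hp2 h3 h2

end Prime

end Fermat.Agent.MAZ.HeckeCusp89
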