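/-
MAZ free layer, brick F-E1 (helper89): **`T_ℓ c₀ = (ℓ + 1) c₀`** for the cuspidal class
`c₀ = [∞] - [0] ∈ J₀(p)(ℚbar)`, `p` prime, `ℓ ≠ p` prime.

`T_ℓ = α_* β^*` for `α, β : F̄_p → F̄_{pℓ}` (Prelude `heckeAlphaBar`, `heckeBetaBar`).

* `cusp_ord_identity` : at every pole `W` of `j` on `X₀(pℓ)`:
  `ord_W j_{pℓ} * ord_W j = ord_W j_p * ord_W j_ℓ` (all four orders are `-(pℓ / d) gcd(d, c)² / m`);
* `restrictAlong_alpha_eq_cuspInf`, `restrictAlong_alpha_eq_cuspZero` : a place `W` of `F̄_{pℓ}`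
  lying over `∞` (resp. `0`) via `β` lies over `∞` (resp. `0`) via `α`;
* `correspondence_cuspInf`, `correspondence_cuspZero` : `α_* β^* [∞] = (ℓ + 1) [∞]`,
  `α_* β^* [0] = (ℓ + 1) [0]` (the ramification indices over a point add up to `deg β = ℓ + 1`);
* `hecke_c0` : `heckeOperatorBar p q (c0 p) = (q + 1) • c0 p`.
-/
import Mathlib
import Fermat.Agent.MAZ.HeckeCusp89.CuspPrime
import Fermat.Agent.ES.P36.JDict26
import Fermat.Agent.ES.HECKE.InputsFinal15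
import Fermat.Agent.ES.HECKE.PointFormula28

set_option autoImplicit false

open AlgebraicCurve ModularCurve UpperHalfPlane
open scoped MatrixGroups

noncomputable section

namespace Fermat.Agent.MAZ.HeckeCusp89

open Fermat.Agent.X0 Fermat.Agent.ES.KRON.Conjugates11 Fermat.Agent.ES.P36.JDict26
open Fermat.Agent.ES.HECKE

section Generic

variable {K F F' : Type*} [Field K] [Field F] [Field F'] [Algebra K F] [Algebra K F']

theorem ramificationIndexAlong_pos' (φ : F →ₐ[K] F') (hφ : φ.toRingHom.IsIntegral)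
    (w : Place K F') : 0 < w.ramificationIndexAlong φ := by
  let _ := algebraAlong φ
  have := isScalarTower_along φ
  have := isIntegral_along φ hφ
  exact w.ramificationIndex_pos (F := F)

end Generic

section Level

variable (p ℓ : ℕ) [NeZero p] [NeZero ℓ]

/-- **The order identity at the cusps of `X₀(pℓ)`**, `gcd(p, ℓ) = 1`. -/
theorem cusp_ord_identity (hcop : Nat.Coprime p ℓ) (W : Place Kbar (FF (p * ℓ)))
    (hW : W.ord (jF (p * ℓ)) < 0) :
    W.ord (jdF (p * ℓ) (p * ℓ) (dvd_refl _)) * W.ord (jF (p * ℓ)) =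
        W.ord (jdF (p * ℓ) p (dvd_mul_right p ℓ)) * W.ord (jdF (p * ℓ) ℓ (dvd_mul_left ℓ p)) ∧
      W.ord (jdF (p * ℓ) ℓ (dvd_mul_left ℓ p)) < 0 := by
  obtain ⟨g, rfl⟩ := exists_cuspPlace_eq' (p * ℓ) W hW
  obtain ⟨m, hm, h⟩ := cuspPlace_ord_jdF (p * ℓ) g
  have hp0 : 0 < p := Nat.pos_of_ne_zero (NeZero.ne p)
  have hℓ0 : 0 < ℓ := Nat.pos_of_ne_zero (NeZero.ne ℓ)
  have h1 := h 1 (one_dvd _)
  have hp := h p (dvd_mul_right p ℓ)
  have hl := h ℓ (dvd_mul_left ℓ p)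
  have hpl := h (p * ℓ) (dvd_refl _)
  rw [cg_one_left, Nat.div_one] at h1
  rw [Nat.mul_div_cancel_left ℓ hp0] at hp
  rw [Nat.mul_div_cancel p hℓ0] at hl
  have hcg : cg (p * ℓ) g⁻¹ = cg p g⁻¹ * cg ℓ g⁻¹ := by
    unfold cg
    rw [Nat.gcd_comm (p * ℓ), Nat.Coprime.gcd_mul _ hcop, Nat.gcd_comm _ p, Nat.gcd_comm _ ℓ]
  rw [Nat.div_self (Nat.mul_pos hp0 hℓ0), hcg] at hpl
  set a : ℕ := cg p g⁻¹ with ha
  set b : ℕ := cg ℓ g⁻¹ with hb
  have hb0 : 0 < b := cg_pos ℓ g⁻¹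
  set x1 := (cuspPlace (CuspGood.good (cuspData (p * ℓ))) g).ord (jF (p * ℓ)) with hx1
  set xp := (cuspPlace (CuspGood.good (cuspData (p * ℓ))) g).ord
    (jdF (p * ℓ) p (dvd_mul_right p ℓ)) with hxp
  set xl := (cuspPlace (CuspGood.good (cuspData (p * ℓ))) g).ord
    (jdF (p * ℓ) ℓ (dvd_mul_left ℓ p)) with hxl
  set xpl := (cuspPlace (CuspGood.good (cuspData (p * ℓ))) g).ord
    (jdF (p * ℓ) (p * ℓ) (dvd_refl _)) with hxpl
  have e1 : (m : ℤ) * x1 = -((p : ℤ) * ℓ) := by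
    have : (m : ℤ) * x1 = -(((p * ℓ * (1 * 1) : ℕ)) : ℤ) := h1
    rw [this]; push_cast; ring
  have ep : (m : ℤ) * xp = -((ℓ : ℤ) * (a * a)) := by
    rw [hp]; push_cast; ring
  have el : (m : ℤ) * xl = -((p : ℤ) * (b * b)) := by
    rw [hl]; push_cast; ring
  have epl : (m : ℤ) * xpl = -(((a : ℤ) * b) * (a * b)) := by
    rw [hpl]; push_cast; ring
  have hm' : (0 : ℤ) < m := by exact_mod_cast hm
  constructor
  · have hmm : ((m : ℤ) * m) ≠ 0 := (mul_pos hm' hm').ne'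
    apply mul_left_cancel₀ hmm
    have l1 : (m : ℤ) * m * (xpl * x1) = ((m : ℤ) * xpl) * (m * x1) := by ring
    have l2 : (m : ℤ) * m * (xp * xl) = ((m : ℤ) * xp) * (m * xl) := by ring
    rw [l1, l2, e1, ep, el, epl]
    ring
  · have hpos : (0 : ℤ) < (p : ℤ) * (b * b) := by
      have : 0 < p * (b * b) := Nat.mul_pos hp0 (Nat.mul_pos hb0 hb0)
      exact_mod_cast this
    by_contra hge
    have : 0 ≤ (m : ℤ) * xl := mul_nonneg hm'.le (not_lt.mp hge)
    linarith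

variable (hℓ : ℓ.Prime)
  (hα : (heckeAlphaBar Kbar p ℓ).toRingHom.IsIntegral)
  (hβ : (heckeBetaBar Kbar p ℓ).toRingHom.IsIntegral)

/-- A place of `F̄_{pℓ}` lying via `β` over a pole of `j` is a pole of `j`. -/
theorem ord_jF_neg_of_restrictAlong_beta (W : Place Kbar (FF (p * ℓ)))
    (h : (W.restrictAlong (heckeBetaBar Kbar p ℓ) hβ).ord (jF p) < 0) :
    W.ord (jF (p * ℓ)) < 0 := by
  have h1 := Place.ord_restrictAlong (heckeBetaBar Kbar p ℓ) hβ W (jF p)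
  rw [beta_jF] at h1
  have he : (0 : ℤ) < (W.ramificationIndexAlong (heckeBetaBar Kbar p ℓ) : ℤ) := by
    exact_mod_cast ramificationIndexAlong_pos' _ hβ W
  by_contra hge
  have h2 := ord_jdF_nonneg (p * ℓ) ℓ (dvd_mul_left ℓ p) W (not_lt.mp hge)
  rw [h1] at h2
  have := mul_neg_of_pos_of_neg he h
  linarith

include hℓ in
theorem ord_restrictAlong_facts (hp : p.Prime) (hne : ℓ ≠ p) (W : Place Kbar (FF (p * ℓ)))
    (h : (W.restrictAlong (heckeBetaBar Kbar p ℓ) hβ).ord (jF p) < 0) :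
    ∃ (ea eb : ℤ) (y : ℤ), 0 < ea ∧ 0 < eb ∧ y < 0 ∧
      (∃ x1 xp : ℤ,
        ea * (W.restrictAlong (heckeAlphaBar Kbar p ℓ) hα).ord (jF p) = x1 ∧
        ea * (W.restrictAlong (heckeAlphaBar Kbar p ℓ) hα).ord (jdF p p (dvd_refl p)) = xp ∧
        eb * (W.restrictAlong (heckeBetaBar Kbar p ℓ) hβ).ord (jF p) = y ∧
        x1 < 0 ∧
        ∀ z : ℤ, eb * (W.restrictAlong (heckeBetaBar Kbar p ℓ) hβ).ord (jdF p p (dvd_refl p)) = z →
          z * x1 = xp * y) := by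
  have hW := ord_jF_neg_of_restrictAlong_beta p ℓ hβ W h
  have hcop : Nat.Coprime p ℓ := (Nat.coprime_primes hp hℓ).mpr (Ne.symm hne)
  obtain ⟨hid, hneg⟩ := cusp_ord_identity p ℓ hcop W hW
  have a1 := Place.ord_restrictAlong (heckeAlphaBar Kbar p ℓ) hα W (jF p)
  have a2 := Place.ord_restrictAlong (heckeAlphaBar Kbar p ℓ) hα W (jdF p p (dvd_refl p))
  have b1 := Place.ord_restrictAlong (heckeBetaBar Kbar p ℓ) hβ W (jF p)
  have b2 := Place.ord_restrictAlong (heckeBetaBar Kbar p ℓ) hβ W (jdF p p (dvd_refl p))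
  rw [alpha_jF] at a1
  rw [alpha_jdF p ℓ p (dvd_refl p) (dvd_mul_right p ℓ)] at a2
  rw [beta_jF] at b1
  rw [beta_jdF p ℓ p (dvd_refl p) (dvd_refl _)] at b2
  refine ⟨W.ramificationIndexAlong (heckeAlphaBar Kbar p ℓ),
    W.ramificationIndexAlong (heckeBetaBar Kbar p ℓ), _, ?_, ?_, hneg, _, _, a1.symm, a2.symm,
    b1.symm, hW, ?_⟩
  · exact_mod_cast ramificationIndexAlong_pos' _ hα W
  · exact_mod_cast ramificationIndexAlong_pos' _ hβ W
  · intro z hz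
    rw [← hz, ← b2]
    exact hid

include hℓ in
/-- A place of `F̄_{pℓ}` over `∞` via `β` is over `∞` via `α`. -/
theorem restrictAlong_alpha_eq_cuspInf (hp : p.Prime) (hne : ℓ ≠ p) (W : Place Kbar (FF (p * ℓ)))
    (h : W.restrictAlong (heckeBetaBar Kbar p ℓ) hβ = cuspInf p) :
    W.restrictAlong (heckeAlphaBar Kbar p ℓ) hα = cuspInf p := by
  have hneg : (W.restrictAlong (heckeBetaBar Kbar p ℓ) hβ).ord (jF p) < 0 := by
    rw [h]; exact cuspInf_ord_jF_neg p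
  obtain ⟨ea, eb, y, hea, heb, hy, x1, xp, h1, h2, h3, hx1, h4⟩ :=
    ord_restrictAlong_facts p ℓ hℓ hα hβ hp hne W hneg
  have hb2 : (W.restrictAlong (heckeBetaBar Kbar p ℓ) hβ).ord (jdF p p (dvd_refl p)) =
      (p : ℤ) * (W.restrictAlong (heckeBetaBar Kbar p ℓ) hβ).ord (jF p) := by
    rw [h]; exact cuspInf_ord_jp p
  have h5 := h4 ((p : ℤ) * y) (by rw [hb2, ← h3]; ring)
  -- `p * y * x1 = xp * y`
  have h6 : xp = (p : ℤ) * x1 := by
    have : y * ((p : ℤ) * x1) = y * xp := by linear_combination h5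
    exact (mul_left_cancel₀ hy.ne this).symm
  apply eq_cuspInf_of_ord p hp
  · by_contra hge
    have := mul_nonneg hea.le (not_lt.mp hge)
    rw [h1] at this
    linarith
  · apply mul_left_cancel₀ hea.ne'
    rw [h2, h6, ← h1]
    ring

include hℓ in
/-- A place of `F̄_{pℓ}` over `0` via `β` is over `0` via `α`. -/
theorem restrictAlong_alpha_eq_cuspZero (hp : p.Prime) (hne : ℓ ≠ p) (W : Place Kbar (FF (p * ℓ)))
    (h : W.restrictAlong (heckeBetaBar Kbar p ℓ) hβ = cuspZero p) :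
    W.restrictAlong (heckeAlphaBar Kbar p ℓ) hα = cuspZero p := by
  have hneg : (W.restrictAlong (heckeBetaBar Kbar p ℓ) hβ).ord (jF p) < 0 := by
    rw [h]; exact cuspZero_ord_jF_neg p
  obtain ⟨ea, eb, y, hea, heb, hy, x1, xp, h1, h2, h3, hx1, h4⟩ :=
    ord_restrictAlong_facts p ℓ hℓ hα hβ hp hne W hneg
  have hb2 : (p : ℤ) * (W.restrictAlong (heckeBetaBar Kbar p ℓ) hβ).ord (jdF p p (dvd_refl p)) =
      (W.restrictAlong (heckeBetaBar Kbar p ℓ) hβ).ord (jF p) := by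
    rw [h]; exact cuspZero_ord_jp p
  have h5 := h4 _ rfl
  have h7 : y = (p : ℤ) * (eb * (W.restrictAlong (heckeBetaBar Kbar p ℓ) hβ).ord
      (jdF p p (dvd_refl p))) := by
    rw [← h3, ← hb2]
    ring
  -- `z * x1 = xp * (p * z)`
  set z := eb * (W.restrictAlong (heckeBetaBar Kbar p ℓ) hβ).ord (jdF p p (dvd_refl p)) with hz
  have hz0 : z ≠ 0 := by
    intro h0
    rw [h0, mul_zero] at h7
    exact hy.ne h7
  have h6 : x1 = (p : ℤ) * xp := by
    have : z * x1 = z * ((p : ℤ) * xp) := by rw [h5, h7]; ring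
    exact mul_left_cancel₀ hz0 this
  apply eq_cuspZero_of_ord p hp
  · by_contra hge
    have := mul_nonneg hea.le (not_lt.mp hge)
    rw [h1] at this
    linarith
  · apply mul_left_cancel₀ hea.ne'
    rw [h1, h6, ← h2]
    ring

end Level

section Assembly

variable (p ℓ : ℕ) [NeZero p] [NeZero ℓ]
  (hα : HeckeAlphaBarIntegral Kbar p ℓ) (hβ : HeckeBetaBarIntegral Kbar p ℓ)
  [HasPrincipalDivisors Kbar (laurentBaseChange Kbar (modularFunctionFieldFull (p * ℓ)))]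
  (hFI : FundamentalIdentityAlong Kbar (heckeBetaBar Kbar p ℓ) hβ)

include hFI in
/-- `α_* β^* [v] = (ℓ + 1) [v]` for a point `v` all of whose `β`-preimages are `α`-preimages. -/
theorem correspondence_single_of_stable (hℓ : ℓ.Prime) (hℓp : ¬ ℓ ∣ p) (v : Place Kbar (FF p))
    (hv : ∀ W : Place Kbar (FF (p * ℓ)), W.restrictAlong (heckeBetaBar Kbar p ℓ) hβ = v →
      W.restrictAlong (heckeAlphaBar Kbar p ℓ) hα = v) :
    Divisor.correspondence (heckeBetaBar Kbar p ℓ) (heckeAlphaBar Kbar p ℓ) hβ hα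
        (Finsupp.single v 1) = Finsupp.single v ((ℓ : ℤ) + 1) := by
  have hdeg' : ∀ w : Place Kbar (FF (p * ℓ)), w.deg = 1 :=
    fun w => Fermat.Agent.RED.TOP.FbarFacts20.deg_eq_one_bar (p * ℓ) w
  rw [PointFormula28.correspondence_single_of_deg _ _ hβ hα hdeg' v 1]
  rw [Finset.sum_congr rfl (fun w hw => by rw [hv w (Place.mem_fiberAlong.mp hw)]),
    ← Finsupp.single_finsetSum]
  congr 1
  simp only [one_mul]
  rw [PointFormula28.sum_ramificationIndexAlong _ hβ hFI hdeg' v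
    (Fermat.Agent.RED.TOP.FbarFacts20.deg_eq_one_bar p v),
    AlongDegree25.finrankAlong_beta Kbar p ℓ hℓ hℓp]
  push_cast
  ring

include hFI in
/-- **`α_* β^* ([∞] - [0]) = (ℓ + 1) ([∞] - [0])`** on `X₀(p)`. -/
theorem correspondence_cuspDiv (hp : p.Prime) (hℓ : ℓ.Prime) (hne : ℓ ≠ p) :
    Divisor.correspondence (heckeBetaBar Kbar p ℓ) (heckeAlphaBar Kbar p ℓ) hβ hα (cuspDiv p) =
      (ℓ + 1) • cuspDiv p := by
  have hℓp : ¬ ℓ ∣ p := fun h => hne ((Nat.prime_dvd_prime_iff_eq hℓ hp).mp h)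
  rw [cuspDiv, map_sub,
    correspondence_single_of_stable p ℓ hα hβ hFI hℓ hℓp (cuspInf p)
      (restrictAlong_alpha_eq_cuspInf p ℓ hℓ hα hβ hp hne),
    correspondence_single_of_stable p ℓ hα hβ hFI hℓ hℓp (cuspZero p)
      (restrictAlong_alpha_eq_cuspZero p ℓ hℓ hα hβ hp hne),
    smul_sub, Finsupp.smul_single, Finsupp.smul_single]
  congr 2 <;> simp

end Assembly

/-- **(E1) The cuspidal class is Eisenstein**: `T_q c₀ = (q + 1) c₀` on `J₀(p)`, `p` prime,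
`q ≠ p` prime. -/
theorem hecke_c0 (p : ℕ) [NeZero p] (hp : p.Prime) (q : Nat.Primes) (hq : (q : ℕ) ≠ p) :
    heckeOperatorBar p q (c0 p) = ((q : ℕ) + 1) • c0 p := by
  have : NeZero (q : ℕ) := ⟨q.2.ne_zero⟩
  have hqp : ¬ (q : ℕ) ∣ p := fun h => hq ((Nat.prime_dvd_prime_iff_eq q.2 hp).mp h)
  have := InputsMain19.hasPrincipalDivisors_level p (q : ℕ)
  have hα := AlongDegree25.heckeAlphaBarIntegral Kbar p (q : ℕ) q.2 hqp
  have hβ := AlongDegree25.heckeBetaBarIntegral Kbar p (q : ℕ) q.2 hqp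
  have hFI := InputsMain19.fundamentalIdentityAlong_beta p (q : ℕ) q.2 hqp
  have hfin := AlongDegree25.finiteAlong_alpha Kbar p (q : ℕ) q.2 hqp
  have hN := InputsFinal15.normFormulaAlong_alpha p (q : ℕ) q.2 hqp
  rw [c0, PointFormula28.heckeOperatorBar_mk q hα hβ hFI hfin hN]
  have key : Pic0.degZeroCorrespondence (heckeBetaBar Kbar p (q : ℕ)) (heckeAlphaBar Kbar p (q : ℕ))
      hβ hα hFI (cuspDiv0 p) = ((q : ℕ) + 1) • cuspDiv0 p := by
    apply Subtype.ext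
    rw [Pic0.coe_degZeroCorrespondence, coe_cuspDiv0,
      correspondence_cuspDiv p (q : ℕ) hα hβ hFI hp q.2 hq]
    rfl
  rw [key]
  rfl

end Fermat.Agent.MAZ.HeckeCusp89
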