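/-
MAZ free layer (helper89): EXACT ORDERS OF `j`, `j_p` AT THE TWO CUSPS OF `X₀(p)`, `p` prime.

* `cuspZero_ord_jp_eq : ord_0 j_p = -1`, `cuspZero_ord_jF_eq : ord_0 j = -p` (any level `p ≠ 0`);
* `finrank_jF : [F_p : ℚbar(j)] = p + 1`;
* `cuspInf_ord_jF_eq : ord_∞ j = -1`, `cuspInf_ord_jp_eq : ord_∞ j_p = -p` (degree count:
  the poles of `j` are the two cusps and their orders sum to `p + 1`).
-/
import Mathlib
import Fermat.Agent.MAZ.HeckeCusp89.CuspPrime
import Fermat.Agent.X0.FFSum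
import Fermat.Agent.X0.G1Index

set_option autoImplicit false

open AlgebraicCurve ModularCurve UpperHalfPlane
open scoped MatrixGroups

noncomputable section

namespace Fermat.Agent.MAZ.HeckeCusp89

open Fermat.Agent.X0 CongruenceSubgroup

variable (p : ℕ) [NeZero p]

/-- `ord_0 j_p = -1`. -/
theorem cuspZero_ord_jp_eq : (cuspZero p).ord (jdF p p (dvd_refl p)) = -1 := by
  obtain ⟨m, hm, h⟩ := cuspPlace_ord_jdF p ModularGroup.S
  have h1 := h p (dvd_refl p)
  have hp0 : 0 < p := Nat.pos_of_ne_zero (NeZero.ne p)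
  rw [cg_S_inv, Nat.div_self hp0] at h1
  have e1 : (m : ℤ) * (cuspZero p).ord (jdF p p (dvd_refl p)) = -(((1 * (1 * 1) : ℕ)) : ℤ) := h1
  have hm' : (1 : ℤ) ≤ m := by exact_mod_cast hm
  generalize (cuspZero p).ord (jdF p p (dvd_refl p)) = x at e1 ⊢
  push_cast at e1
  have hx1 : x < 0 := by
    by_contra hx
    have hx' : 0 ≤ x := not_lt.mp hx
    nlinarith
  have hx2 : -2 < x := by
    by_contra hx
    have hx' : x ≤ -2 := not_lt.mp hx
    nlinarith
  omega

/-- `ord_0 j = -p`. -/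
theorem cuspZero_ord_jF_eq : (cuspZero p).ord (jF p) = -(p : ℤ) := by
  rw [← cuspZero_ord_jp, cuspZero_ord_jp_eq]
  ring

theorem dedekindPsi_prime89 {q : ℕ} (hq : q.Prime) : ModularCurve.dedekindPsi q = q + 1 := by
  rw [ModularCurve.dedekindPsi, hq.divisors, Finset.filter_true_of_mem,
    Finset.sum_pair hq.one_lt.ne, Nat.div_one, Nat.div_self hq.pos]
  intro d hd
  rcases Finset.mem_insert.mp hd with rfl | h
  · exact squarefree_one
  · rw [Finset.mem_singleton.mp h]
    exact hq.prime.squarefree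

/-- `[F_p : ℚbar(j)] = p + 1`. -/
theorem finrank_jF (hp : p.Prime) :
    Module.finrank (IntermediateField.adjoin Kbar {jF p}) (FF p) = p + 1 := by
  rw [← Degree.card_eq_finrank_adjoin p (realizeData p) (cuspData p), G1Index.g1_card,
    dedekindPsi_prime89 hp]

/-- `ord_∞ j = -1`. -/
theorem cuspInf_ord_jF_eq (hp : p.Prime) : (cuspInf p).ord (jF p) = -1 := by
  have hx : FF.IsGen Kbar (jF p) := Degree.isGen_jF p (realizeData p) (cuspData p)
  have hset : {v : Place Kbar (FF p) | v.ord (jF p) < 0} = {cuspInf p, cuspZero p} := by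
    ext v
    constructor
    · intro hv
      rcases eq_cuspInf_or_eq_cuspZero p hp v hv with h | h
      · exact Or.inl h
      · exact Or.inr h
    · rintro (rfl | rfl)
      · exact cuspInf_ord_jF_neg p
      · exact cuspZero_ord_jF_neg p
  have h2 : ∑ᶠ v ∈ {v : Place Kbar (FF p) | v.ord (jF p) < 0}, -v.ord (jF p) =
      (Module.finrank (IntermediateField.adjoin Kbar {jF p}) (FF p) : ℤ) := FF.sum_ord_poles hx
  rw [hset, finsum_mem_pair (cuspInf_ne_cuspZero p hp), finrank_jF p hp, cuspZero_ord_jF_eq] at h2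
  push_cast at h2
  linarith

/-- `ord_∞ j_p = -p`. -/
theorem cuspInf_ord_jp_eq (hp : p.Prime) :
    (cuspInf p).ord (jdF p p (dvd_refl p)) = -(p : ℤ) := by
  rw [cuspInf_ord_jp, cuspInf_ord_jF_eq p hp]
  ring

end Fermat.Agent.MAZ.HeckeCusp89
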